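import Fermat.Agent.Ihara.Defs
import Fermat.Agent.AnJac.HeckeF

/-!
# Homomorphisms attached to modular symbols
-/

set_option autoImplicit false
set_option linter.unusedSectionVars false

noncomputable section

namespace Fermat.Agent.IharaL

open CongruenceSubgroup Matrix.SpecialLinearGroup Matrix OnePoint ModularForm
open Fermat.Agent.Ihara Fermat.Agent.AnJac
open scoped MatrixGroups
open P2MW.S_ModularForm_heckeT_slash_eq_self_of_mem_Gamma0.ModularForm.HeckeSlashInvariance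

variable {k : Type*} [AddCommGroup k] {N : ℕ}

/-- extension of scalars -/
def toR : GL (Fin 2) ℚ →* GL (Fin 2) ℝ := Matrix.GeneralLinearGroup.map (algebraMap ℚ ℝ)

lemma toR_apply (g : GL (Fin 2) ℚ) (i j : Fin 2) : toR g i j = ((g i j : ℚ) : ℝ) := rfl

lemma toR_injective : Function.Injective toR := by
  intro g h e
  ext i j
  have h1 := congrArg (fun A : GL (Fin 2) ℝ => A i j) e
  simp only [toR_apply] at h1
  exact_mod_cast h1

lemma toR_mapGL (γ : SL(2,ℤ)) : toR (mapGL ℚ γ) = gl γ := by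
  ext i j
  rw [toR_apply]
  simp [gl]

/-- rational representatives -/
def rq (ℓ : ℕ) (x : OnePoint (ZMod ℓ)) : GL (Fin 2) ℚ :=
  x.elim (um ℓ 0 1) (fun j : ZMod ℓ => um 1 j.val ℓ)

lemma toR_rq {ℓ : ℕ} (hℓ : ℓ ≠ 0) (x : OnePoint (ZMod ℓ)) : toR (rq ℓ x) = heckeRep ℓ x := by
  have hℓ' : (ℓ : ℚ) ≠ 0 := by exact_mod_cast hℓ
  induction x using OnePoint.rec with
  | infty =>
    ext i j
    rw [toR_apply, heckeRep_infty, val_heckeDiagMatrix hℓ]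
    have h1 : ((rq ℓ ∞ : GL (Fin 2) ℚ) : Matrix (Fin 2) (Fin 2) ℚ) = !![(ℓ : ℚ), 0; 0, 1] :=
      coe_um (a := (ℓ : ℚ)) (b := 0) (d := 1) (by simpa using hℓ')
    rw [h1]
    fin_cases i <;> fin_cases j <;> simp
  | coe x =>
    ext i j
    rw [toR_apply, heckeRep_coe, val_heckeMatrix hℓ]
    have h1 : ((rq ℓ (x : OnePoint (ZMod ℓ)) : GL (Fin 2) ℚ) : Matrix (Fin 2) (Fin 2) ℚ) =
        !![(1 : ℚ), (x.val : ℚ); 0, (ℓ : ℚ)] :=
      coe_um (a := (1 : ℚ)) (b := (x.val : ℚ)) (d := (ℓ : ℚ)) (by simpa using hℓ')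
    rw [h1]
    fin_cases i <;> fin_cases j <;> simp

lemma rq_infty {ℓ : ℕ} (hℓ : ℓ ≠ 0) (x : OnePoint (ZMod ℓ)) : rq ℓ x • (∞ : Cusp) = ∞ := by
  rw [OnePoint.smul_infty_eq_self_iff]
  have hℓ' : (ℓ : ℚ) ≠ 0 := by exact_mod_cast hℓ
  induction x using OnePoint.rec with
  | infty =>
    have h1 : ((rq ℓ ∞ : GL (Fin 2) ℚ) : Matrix (Fin 2) (Fin 2) ℚ) = !![(ℓ : ℚ), 0; 0, 1] :=
      coe_um (a := (ℓ : ℚ)) (b := 0) (d := 1) (by simpa using hℓ')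
    rw [h1]; simp
  | coe x =>
    have h1 : ((rq ℓ (x : OnePoint (ZMod ℓ)) : GL (Fin 2) ℚ) : Matrix (Fin 2) (Fin 2) ℚ) =
        !![(1 : ℚ), (x.val : ℚ); 0, (ℓ : ℚ)] :=
      coe_um (a := (1 : ℚ)) (b := (x.val : ℚ)) (d := (ℓ : ℚ)) (by simpa using hℓ')
    rw [h1]; simp

section T

variable {ℓ : ℕ} [hℓ : Fact ℓ.Prime] (hN : ¬ ℓ ∣ N)

lemma rq_spec (γ : Gamma0 N) (x : OnePoint (ZMod ℓ)) :
    rq ℓ x * mapGL ℚ (γ : SL(2,ℤ)) =
      mapGL ℚ ((hfT N ℓ hN).g γ x : SL(2,ℤ)) * rq ℓ ((hfT N ℓ hN).s γ x) := by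
  apply toR_injective
  rw [map_mul, map_mul, toR_rq hℓ.out.ne_zero, toR_rq hℓ.out.ne_zero, toR_mapGL, toR_mapGL]
  exact (hfT N ℓ hN).spec γ x

lemma TS_eq (φ : Cusp → Cusp → k) : TS ℓ φ = ∑ x : OnePoint (ZMod ℓ), tr (rq ℓ x) φ := by
  rw [TS]
  have h1 : ∑ x : OnePoint (ZMod ℓ), tr (rq ℓ x) φ =
      tr (rq ℓ ∞) φ + ∑ j : ZMod ℓ, tr (rq ℓ (j : OnePoint (ZMod ℓ))) φ :=
    Fintype.sum_option _
  rw [h1]
  have : NeZero ℓ := ⟨hℓ.out.ne_zero⟩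
  have h2 : ∑ j ∈ Finset.range ℓ, tr (um 1 j ℓ) φ =
      ∑ j : ZMod ℓ, tr (rq ℓ (j : OnePoint (ZMod ℓ))) φ := by
    refine Finset.sum_bij (fun j _ => (j : ZMod ℓ)) (fun _ _ => Finset.mem_univ _) ?_ ?_ ?_
    · intro a ha b hb h
      rw [Finset.mem_range] at ha hb
      have h3 := congrArg ZMod.val h
      rwa [ZMod.val_natCast_of_lt ha, ZMod.val_natCast_of_lt hb] at h3
    · intro b _
      exact ⟨b.val, Finset.mem_range.mpr (ZMod.val_lt b), ZMod.natCast_zmod_val b⟩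
    · intro a ha
      rw [Finset.mem_range] at ha
      change _ = tr (um 1 ((a : ZMod ℓ).val : ℚ) ℓ) φ
      rw [ZMod.val_natCast_of_lt ha]
  rw [h2]
  rfl

lemma tr_mul (g h : GL (Fin 2) ℚ) (φ : Cusp → Cusp → k) : tr (g * h) φ = tr h (tr g φ) := by
  funext α β
  simp only [tr, mul_smul]

lemma tr_add (g : GL (Fin 2) ℚ) (φ ψ : Cusp → Cusp → k) : tr g (φ + ψ) = tr g φ + tr g ψ := rfl

lemma tr_sum {ι : Type*} (s : Finset ι) (g : GL (Fin 2) ℚ) (φ : ι → Cusp → Cusp → k) :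
    tr g (∑ i ∈ s, φ i) = ∑ i ∈ s, tr g (φ i) := by
  funext α β
  simp only [tr, Finset.sum_apply]

lemma IsMS.tr' {φ : Cusp → Cusp → k} (h : IsMS φ) (g : GL (Fin 2) ℚ) : IsMS (tr g φ) :=
  fun _ _ _ => h _ _ _

lemma IsMS.add' {φ ψ : Cusp → Cusp → k} (h : IsMS φ) (h' : IsMS ψ) : IsMS (φ + ψ) :=
  fun α β γ => by
    simp only [Pi.add_apply]
    rw [← h α β γ, ← h' α β γ]
    abel

lemma isMS_zero : IsMS (0 : Cusp → Cusp → k) := fun _ _ _ => by simp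

lemma isMS_sum {ι : Type*} (s : Finset ι) {φ : ι → Cusp → Cusp → k} (h : ∀ i ∈ s, IsMS (φ i)) :
    IsMS (∑ i ∈ s, φ i) := by
  classical
  induction s using Finset.induction_on with
  | empty => exact isMS_zero
  | insert a s ha ih =>
    rw [Finset.sum_insert ha]
    exact IsMS.add' (h a (Finset.mem_insert_self _ _))
      (ih fun i hi => h i (Finset.mem_insert_of_mem hi))

include hN in
/-- `T_ℓ` preserves symbols of level `N` -/
theorem inSym_TS {φ : Cusp → Cusp → k} (h : InSym N φ) : InSym N (TS ℓ φ) := by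
  rw [TS_eq]
  refine ⟨isMS_sum _ fun x _ => IsMS.tr' h.ms _, fun γ hγ => ?_⟩
  rw [tr_sum]
  have h1 : ∀ x : OnePoint (ZMod ℓ), tr (mapGL ℚ γ) (tr (rq ℓ x) φ) =
      tr (rq ℓ ((hfT N ℓ hN).s ⟨γ, hγ⟩ x)) φ := fun x => by
    rw [← tr_mul, rq_spec hN ⟨γ, hγ⟩ x, tr_mul, h.inv _ ((hfT N ℓ hN).g ⟨γ, hγ⟩ x).2]
  rw [Finset.sum_congr rfl fun x _ => h1 x]
  exact Equiv.sum_comp ((hfT N ℓ hN).sE ⟨γ, hγ⟩) (fun x => tr (rq ℓ x) φ)

end T

/-! ### the homomorphism attached to a symbol -/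

lemma IsMS.self {φ : Cusp → Cusp → k} (h : IsMS φ) (α : Cusp) : φ α α = 0 := by
  have := h α α α
  simpa using this

lemma IsMS.symm' {φ : Cusp → Cusp → k} (h : IsMS φ) (α β : Cusp) : φ α β = -φ β α := by
  have := h α β α
  rw [IsMS.self h] at this
  exact eq_neg_of_add_eq_zero_left this

/-- the homomorphism attached to a symbol -/
def homOf {φ : Cusp → Cusp → k} (h : InSym N φ) : Additive (Gamma0 N) →+ k where
  toFun x := φ ∞ (mapGL ℚ ((Additive.toMul x : Gamma0 N) : SL(2,ℤ)) • (∞ : Cusp))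
  map_zero' := by
    rw [toMul_zero, Subgroup.coe_one, map_one, one_smul]
    exact IsMS.self h.ms _
  map_add' x y := by
    rw [toMul_add, Subgroup.coe_mul, map_mul, mul_smul]
    rw [← h.ms ∞ (mapGL ℚ ((Additive.toMul x : Gamma0 N) : SL(2,ℤ)) • (∞ : Cusp))]
    congr 1
    have h1 := congrFun (congrFun (h.inv _ (Additive.toMul x).2) ∞)
      (mapGL ℚ ((Additive.toMul y : Gamma0 N) : SL(2,ℤ)) • (∞ : Cusp))
    exact h1

lemma homOf_apply {φ : Cusp → Cusp → k} (h : InSym N φ) (γ : Gamma0 N) :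
    homOf h (Additive.ofMul γ) = φ ∞ (mapGL ℚ (γ : SL(2,ℤ)) • (∞ : Cusp)) := rfl

/-- the value does not depend on the cusp -/
lemma homOf_apply' {φ : Cusp → Cusp → k} (h : InSym N φ) (γ : Gamma0 N) (α : Cusp) :
    homOf h (Additive.ofMul γ) = φ α (mapGL ℚ (γ : SL(2,ℤ)) • α) := by
  rw [homOf_apply, ← h.ms α ∞, ← h.ms ∞ (mapGL ℚ (γ : SL(2,ℤ)) • (∞ : Cusp))
    (mapGL ℚ (γ : SL(2,ℤ)) • α)]
  have h1 : φ (mapGL ℚ (γ : SL(2,ℤ)) • (∞ : Cusp)) (mapGL ℚ (γ : SL(2,ℤ)) • α) = φ ∞ α :=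
    congrFun (congrFun (h.inv _ γ.2) ∞) α
  rw [h1, IsMS.symm' h.ms α ∞]
  abel

section T

variable {ℓ : ℕ} [hℓ : Fact ℓ.Prime] (hN : ¬ ℓ ∣ N)

/-- compatibility with Hecke operators -/
theorem homOf_TS {φ : Cusp → Cusp → k} (h : InSym N φ) :
    homOf (inSym_TS hN h) = (hfT N ℓ hN).T (homOf h) := by
  ext γ
  change homOf (inSym_TS hN h) (Additive.ofMul γ) = (hfT N ℓ hN).T (homOf h) (Additive.ofMul γ)
  rw [homOf_apply, TS_eq, HF.T_apply]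
  rw [Finset.sum_apply, Finset.sum_apply]
  refine Finset.sum_congr rfl fun x _ => ?_
  rw [homOf_apply, tr, rq_infty hℓ.out.ne_zero, ← mul_smul, rq_spec hN, mul_smul,
    rq_infty hℓ.out.ne_zero]

end T

end Fermat.Agent.IharaL
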