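import Fermat.Agent.IharaL.Lift
import Mathlib.NumberTheory.ModularForms.Cusps

/-!
# Boundary symbols
-/

set_option autoImplicit false
set_option linter.unusedSectionVars false

noncomputable section

namespace Fermat.Agent.IharaL

open CongruenceSubgroup Matrix.SpecialLinearGroup Matrix OnePoint ModularForm
open Fermat.Agent.Ihara Fermat.Agent.AnJac
open scoped MatrixGroups

variable {k : Type*} [AddCommGroup k] {N : ℕ}

/-- cusps are in the orbit of `∞` -/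
lemma exists_inf (α : Cusp) : ∃ γ : SL(2,ℤ), mapGL ℚ γ • (∞ : Cusp) = α :=
  let ⟨γ, h⟩ := OnePoint.exists_mem_SL2 ℤ α
  ⟨γ, h⟩

lemma mapGL_ent (g : SL(2,ℤ)) (i j : Fin 2) : (mapGL ℚ g) i j = ((g i j : ℤ) : ℚ) := by simp

lemma inv_ent (g : SL(2,ℤ)) : g⁻¹ 0 0 = g 1 1 ∧ g⁻¹ 0 1 = - g 0 1 ∧ g⁻¹ 1 0 = - g 1 0 ∧
    g⁻¹ 1 1 = g 0 0 := by
  rw [Matrix.SpecialLinearGroup.SL2_inv_expl]
  exact ⟨rfl, rfl, rfl, rfl⟩

lemma mul_ent (g h : SL(2,ℤ)) (i j : Fin 2) :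
    (g * h : SL(2,ℤ)) i j = g i 0 * h 0 j + g i 1 * h 1 j := by
  rw [Matrix.SpecialLinearGroup.coe_mul, Matrix.mul_apply, Fin.sum_univ_two]

lemma exists_SL' {a b c d : ℤ} (h : a * d - b * c = 1) :
    ∃ g : SL(2,ℤ), g 0 0 = a ∧ g 0 1 = b ∧ g 1 0 = c ∧ g 1 1 = d :=
  ⟨⟨!![a, b; c, d], by rw [Matrix.det_fin_two_of, h]⟩, rfl, rfl, rfl, rfl⟩

/-- integral shape of the representatives -/
lemma rq_coe {ℓ : ℕ} (hℓ : ℓ ≠ 0) (x : OnePoint (ZMod ℓ)) : ∃ a b d : ℤ,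
    ((rq ℓ x : GL (Fin 2) ℚ) : Matrix (Fin 2) (Fin 2) ℚ) = !![(a : ℚ), (b : ℚ); 0, (d : ℚ)] ∧
      a * d = ℓ := by
  have hℓ' : (ℓ : ℚ) ≠ 0 := by exact_mod_cast hℓ
  induction x using OnePoint.rec with
  | infty =>
    refine ⟨ℓ, 0, 1, ?_, by ring⟩
    have h1 : ((rq ℓ ∞ : GL (Fin 2) ℚ) : Matrix (Fin 2) (Fin 2) ℚ) = !![(ℓ : ℚ), 0; 0, 1] :=
      coe_um (a := (ℓ : ℚ)) (b := 0) (d := 1) (by simpa using hℓ')
    rw [h1]; simp
  | coe x =>
    refine ⟨1, x.val, ℓ, ?_, by ring⟩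
    have h1 : ((rq ℓ (x : OnePoint (ZMod ℓ)) : GL (Fin 2) ℚ) : Matrix (Fin 2) (Fin 2) ℚ) =
        !![(1 : ℚ), (x.val : ℚ); 0, (ℓ : ℚ)] :=
      coe_um (a := (1 : ℚ)) (b := (x.val : ℚ)) (d := (ℓ : ℚ)) (by simpa using hℓ')
    rw [h1]; simp

/-- **Key**: an integral upper triangular matrix of determinant `ℓ ≡ 1 mod N` prime preserves the
`Γ₀(N)`-orbits of cusps. -/
theorem orbit_rq {ℓ : ℕ} (hℓ : ℓ.Prime) (hℓN : ℓ ≡ 1 [MOD N]) (x : OnePoint (ZMod ℓ)) (α : Cusp) :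
    ∃ τ : Gamma0 N, mapGL ℚ (τ : SL(2,ℤ)) • α = rq ℓ x • α := by
  obtain ⟨γ, hγ⟩ := exists_inf α
  obtain ⟨γ', hγ'⟩ := exists_inf (rq ℓ x • α)
  obtain ⟨a, b, d, hA, had⟩ := rq_coe hℓ.ne_zero x
  -- the upper triangular matrix
  set p := γ 0 0 with hp
  set q := γ 0 1 with hq
  set r := γ 1 0 with hr
  set s := γ 1 1 with hs
  set p' := γ' 0 0 with hp'
  set q' := γ' 0 1 with hq'
  set r' := γ' 1 0 with hr'
  set s' := γ' 1 1 with hs'
  have hdet : p * s - q * r = 1 := by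
    have := γ.det_coe
    rwa [Matrix.det_fin_two] at this
  have hdet' : p' * s' - q' * r' = 1 := by
    have := γ'.det_coe
    rwa [Matrix.det_fin_two] at this
  have h1 : ((mapGL ℚ γ')⁻¹ * rq ℓ x * mapGL ℚ γ) • (∞ : Cusp) = ∞ := by
    rw [mul_smul, mul_smul, hγ, ← hγ', inv_smul_smul]
  rw [OnePoint.smul_infty_eq_self_iff] at h1
  have hinv : (((mapGL ℚ γ')⁻¹ : GL (Fin 2) ℚ) : Matrix (Fin 2) (Fin 2) ℚ) =
      !![(s' : ℚ), -(q' : ℚ); -(r' : ℚ), (p' : ℚ)] := by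
    rw [← map_inv]
    obtain ⟨e1, e2, e3, e4⟩ := inv_ent γ'
    ext i j
    rw [mapGL_ent]
    fin_cases i <;> fin_cases j
    · change ((γ'⁻¹ 0 0 : ℤ) : ℚ) = _
      rw [e1]; rfl
    · change ((γ'⁻¹ 0 1 : ℤ) : ℚ) = _
      rw [e2]; push_cast; rfl
    · change ((γ'⁻¹ 1 0 : ℤ) : ℚ) = _
      rw [e3]; push_cast; rfl
    · change ((γ'⁻¹ 1 1 : ℤ) : ℚ) = _
      rw [e4]; rfl
  have hγm : ((mapGL ℚ γ : GL (Fin 2) ℚ) : Matrix (Fin 2) (Fin 2) ℚ) =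
      !![(p : ℚ), (q : ℚ); (r : ℚ), (s : ℚ)] := by
    ext i j
    fin_cases i <;> fin_cases j <;> simp [hs, hq, hr, hp]
  have h2 : (((mapGL ℚ γ')⁻¹ * rq ℓ x * mapGL ℚ γ : GL (Fin 2) ℚ) : Matrix (Fin 2) (Fin 2) ℚ) =
      !![(s' : ℚ), -(q' : ℚ); -(r' : ℚ), (p' : ℚ)] * !![(a : ℚ), (b : ℚ); 0, (d : ℚ)] *
        !![(p : ℚ), (q : ℚ); (r : ℚ), (s : ℚ)] := by
    rw [Units.val_mul, Units.val_mul, hinv, hA, hγm]
  have h3 : -r' * (a * p + b * r) + p' * (d * r) = 0 := by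
    have h4 : ((mapGL ℚ γ')⁻¹ * rq ℓ x * mapGL ℚ γ : GL (Fin 2) ℚ) 1 0 =
      ((-r' * (a * p + b * r) + p' * (d * r) : ℤ) : ℚ) := by
      rw [h2]
      simp [Matrix.mul_apply, Fin.sum_univ_two]
      ring
    rw [h4] at h1
    exact_mod_cast h1
  -- the entries
  set A := s' * (a * p + b * r) - q' * (d * r) with hAdef
  set D := -r' * (a * q + b * s) + p' * (d * s) with hDdef
  set B := s' * (a * q + b * s) - q' * (d * s) with hBdef
  have hAD : A * D = ℓ := by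
    have h5 : A * D - B * (-r' * (a * p + b * r) + p' * (d * r)) =
        (p' * s' - q' * r') * (a * d) * (p * s - q * r) := by
      rw [hAdef, hBdef, hDdef]; ring
    rw [h3, mul_zero, sub_zero, hdet, hdet', had] at h5
    simpa using h5
  have hmod : (N : ℤ) ∣ (ℓ : ℤ) - 1 := by
    have := (Nat.modEq_iff_dvd.mp hℓN.symm)
    simpa using this
  obtain ⟨e, he, heA, heD⟩ : ∃ e : ℤ, e * e = 1 ∧ (N : ℤ) ∣ e - A ∧ (N : ℤ) ∣ e - D := by
    have hpr : Prime (ℓ : ℤ) := Nat.prime_iff_prime_int.mp hℓ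
    rcases hpr.irreducible.isUnit_or_isUnit hAD.symm with h6 | h6
    · rcases Int.isUnit_iff.mp h6 with h7 | h7
      · rw [h7] at hAD ⊢
        refine ⟨1, by ring, by simp, ?_⟩
        rw [one_mul] at hAD
        rw [hAD]
        exact (dvd_neg.mpr hmod).trans (by rw [neg_sub])
      · rw [h7] at hAD ⊢
        refine ⟨-1, by ring, by simp, ?_⟩
        have : D = -ℓ := by linarith
        rw [this]
        exact hmod.trans (by rw [show (-1 : ℤ) - -ℓ = ℓ - 1 by ring])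
    · rcases Int.isUnit_iff.mp h6 with h7 | h7
      · rw [h7] at hAD ⊢
        refine ⟨1, by ring, ?_, by simp⟩
        rw [mul_one] at hAD
        rw [hAD]
        exact (dvd_neg.mpr hmod).trans (by rw [neg_sub])
      · rw [h7] at hAD ⊢
        refine ⟨-1, by ring, ?_, by simp⟩
        have : A = -ℓ := by linarith
        rw [this]
        exact hmod.trans (by rw [show (-1 : ℤ) - -ℓ = ℓ - 1 by ring])
  -- the element
  obtain ⟨t, t00, t01, t10, t11⟩ := exists_SL' (a := e) (b := B) (c := 0) (d := e)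
    (by rw [he]; ring)
  have ht : mapGL ℚ t • (∞ : Cusp) = ∞ := by
    rw [OnePoint.smul_infty_eq_self_iff, mapGL_ent, t10, Int.cast_zero]
  let τ : SL(2,ℤ) := γ' * t * γ⁻¹
  have hτ10 : τ 1 0 = r' * e * s - (r' * B + s' * e) * r := by
    obtain ⟨e1, -, e3, -⟩ := inv_ent γ
    simp only [τ, mul_ent, e1, e3, t00, t01, t10, t11]
    rw [← hr', ← hs', ← hr, ← hs]
    ring
  have hτ : τ ∈ Gamma0 N := by
    rw [CongruenceSubgroup.Gamma0_mem, ZMod.intCast_zmod_eq_zero_iff_dvd, hτ10]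
    have h8 : r' * A * s - (r' * B + s' * D) * r = 0 := by
      rw [hAdef, hBdef, hDdef]
      linear_combination -(s' * s) * h3
    have h13 : r' * e * s - (r' * B + s' * e) * r =
        (r' * s) * (e - A) - (s' * r) * (e - D) + (r' * A * s - (r' * B + s' * D) * r) := by ring
    rw [h13, h8, add_zero]
    exact dvd_sub (heA.mul_left _) (heD.mul_left _)
  refine ⟨⟨τ, hτ⟩, ?_⟩
  change mapGL ℚ τ • α = _
  rw [← hγ', ← hγ]
  simp only [τ]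
  rw [map_mul, map_mul, mul_smul, mul_smul, map_inv, inv_smul_smul, ht]

/-- a symbol with vanishing homomorphism is a boundary symbol -/
lemma bd_of_homOf {φ : Cusp → Cusp → k} (h : InSym N φ) (h0 : homOf h = 0) (τ : Gamma0 N)
    (α : Cusp) : φ ∞ (mapGL ℚ (τ : SL(2,ℤ)) • α) = φ ∞ α := by
  have h1 := homOf_apply' h τ α
  rw [h0] at h1
  rw [← h.ms ∞ α, ← h1]
  simp

/-- **(L4)** `T_ℓ - ℓ - 1` kills the boundary symbols, for `ℓ ≡ 1 mod N` -/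
theorem es_eq_zero {φ : Cusp → Cusp → k} (h : InSym N φ) (h0 : homOf h = 0) {ℓ : ℕ}
    (hℓ : ℓ.Prime) (hℓN : ℓ ≡ 1 [MOD N]) : ES ℓ φ = 0 := by
  have : Fact ℓ.Prime := ⟨hℓ⟩
  have : NeZero ℓ := ⟨hℓ.ne_zero⟩
  have key : ∀ (x : OnePoint (ZMod ℓ)) (α : Cusp), φ ∞ (rq ℓ x • α) = φ ∞ α := by
    intro x α
    obtain ⟨τ, hτ⟩ := orbit_rq hℓ hℓN x α
    rw [← hτ, bd_of_homOf h h0]
  have key2 : ∀ (x : OnePoint (ZMod ℓ)), tr (rq ℓ x) φ = φ := by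
    intro x
    funext α β
    change φ (rq ℓ x • α) (rq ℓ x • β) = φ α β
    have h1 : ∀ α β : Cusp, φ α β = φ ∞ β - φ ∞ α := fun α β => by
      rw [← h.ms ∞ α β]; abel
    rw [h1, key, key, ← h1]
  rw [ES, TS_eq, Finset.sum_congr rfl fun x _ => key2 x, Finset.sum_const, sub_eq_zero]
  congr 1
  rw [Finset.card_univ]
  change Fintype.card (Option (ZMod ℓ)) = _
  rw [Fintype.card_option, ZMod.card]

end Fermat.Agent.IharaL
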