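import Fermat.Agent.IharaL.Basic

/-!
# Symbols from homomorphisms; boundary symbols
-/

set_option autoImplicit false
set_option linter.unusedSectionVars false

noncomputable section

namespace Fermat.Agent.IharaL

open CongruenceSubgroup Matrix.SpecialLinearGroup Matrix OnePoint ModularForm
open Fermat.Agent.Ihara Fermat.Agent.AnJac
open scoped MatrixGroups

variable {k : Type*} [AddCommGroup k] {N : ℕ}

/-- homomorphisms killing the cusp stabilizers -/
def KC (f : Additive (Gamma0 N) →+ k) : Prop :=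
  ∀ (γ : Gamma0 N) (α : Cusp), mapGL ℚ (γ : SL(2,ℤ)) • α = α → f (Additive.ofMul γ) = 0

lemma kc_homOf {φ : Cusp → Cusp → k} (h : InSym N φ) : KC (homOf h) := fun γ α hα => by
  rw [homOf_apply' h γ α, hα, IsMS.self h.ms]

/-- the orbit relation -/
def orb (N : ℕ) : Setoid Cusp where
  r α β := ∃ γ : Gamma0 N, mapGL ℚ (γ : SL(2,ℤ)) • β = α
  iseqv :=
    { refl := fun α => ⟨1, by rw [Subgroup.coe_one, map_one, one_smul]⟩
      symm := by
        rintro α β ⟨γ, h⟩
        refine ⟨γ⁻¹, ?_⟩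
        rw [← h, Subgroup.coe_inv, map_inv, inv_smul_smul]
      trans := by
        rintro α β δ ⟨γ, h⟩ ⟨γ', h'⟩
        refine ⟨γ * γ', ?_⟩
        rw [Subgroup.coe_mul, map_mul, mul_smul, h', h] }

lemma exists_out (α : Cusp) : ∃ γ : Gamma0 N,
    mapGL ℚ (γ : SL(2,ℤ)) • (Quotient.out (Quotient.mk (orb N) α)) = α :=
  (orb N).symm (Quotient.mk_out (s := orb N) α)

/-- the potential -/
theorem exists_pot {f : Additive (Gamma0 N) →+ k} (hf : KC f) :
    ∃ h : Cusp → k, ∀ (γ : Gamma0 N) (α : Cusp),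
      h (mapGL ℚ (γ : SL(2,ℤ)) • α) = f (Additive.ofMul γ) + h α := by
  choose g hg using fun α => exists_out (N := N) α
  refine ⟨fun α => f (Additive.ofMul (g α)), fun γ α => ?_⟩
  have h1 : (Quotient.mk (orb N) (mapGL ℚ (γ : SL(2,ℤ)) • α)) = Quotient.mk (orb N) α :=
    Quotient.sound ⟨γ, rfl⟩
  have h2 := hg (mapGL ℚ (γ : SL(2,ℤ)) • α)
  rw [h1] at h2
  have h3 := hg α
  have h4 : f (Additive.ofMul ((g (mapGL ℚ (γ : SL(2,ℤ)) • α))⁻¹ * (γ * g α))) = 0 := by
    apply hf _ (Quotient.out (Quotient.mk (orb N) α))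
    rw [Subgroup.coe_mul, Subgroup.coe_mul, Subgroup.coe_inv, map_mul, map_mul, mul_smul, mul_smul,
      h3, map_inv]
    rw [inv_smul_eq_iff]
    exact h2.symm
  rw [ofMul_mul, ofMul_mul, ofMul_inv, map_add, map_add, map_neg] at h4
  exact (eq_of_sub_eq_zero (by rw [← h4]; abel)).symm

/-- **(L3)** every homomorphism killing the cusp stabilizers comes from a symbol -/
theorem exists_sym {f : Additive (Gamma0 N) →+ k} (hf : KC f) :
    ∃ (φ : Cusp → Cusp → k) (h : InSym N φ), homOf h = f := by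
  obtain ⟨h, hh⟩ := exists_pot hf
  have hφ : InSym N (fun α β => h β - h α) := by
    refine ⟨fun α β γ => by abel, fun γ hγ => ?_⟩
    funext α β
    change h (mapGL ℚ γ • β) - h (mapGL ℚ γ • α) = _
    have h1 := hh ⟨γ, hγ⟩ α
    have h2 := hh ⟨γ, hγ⟩ β
    simp only at h1 h2
    rw [h1, h2]
    abel
  refine ⟨_, hφ, ?_⟩
  ext γ
  change homOf hφ (Additive.ofMul γ) = f (Additive.ofMul γ)
  rw [homOf_apply, hh]
  abel

end Fermat.Agent.IharaL
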