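import Fermat.Agent.IharaL.Bd
import Fermat.Agent.Ihara.Cos2
import Fermat.Agent.Ihara.NTL

/-!
# Ihara's lemma
-/

set_option autoImplicit false
set_option linter.unusedSectionVars false

noncomputable section

namespace Fermat.Agent.IharaL

open CongruenceSubgroup Matrix.SpecialLinearGroup Matrix OnePoint ModularForm
open Fermat.Agent.Ihara Fermat.Agent.AnJac
open scoped MatrixGroups

/-- **Ihara's lemma** -/
theorem iharaStatement : IharaStatement := by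
  intro N q hN hq hqN k _ φ ψ hφ hψ e ℓ hℓ hℓN
  obtain ⟨M, hM, hNM, h⟩ := ihara_hom ntLemma hq hN hqN hφ hψ e hℓ hℓN
  refine ⟨M, hM, fun ℓ' hℓ' h1 => ?_⟩
  have h2 : ℓ' ≡ 1 [MOD N] := h1.of_dvd hNM
  have h3 : ¬ ℓ' ∣ N := fun h4 => by
    have h5 : ℓ' ∣ 1 := (Nat.modEq_zero_iff_dvd.mp
      ((h2.of_dvd h4).symm.trans (Nat.modEq_zero_iff_dvd.mpr dvd_rfl)))
    exact hℓ'.one_lt.ne' (Nat.dvd_one.mp h5)
  obtain ⟨h4, h5⟩ := h ℓ' hℓ' h1 h3
  refine es_eq_zero h4 ?_ hℓ' h2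
  ext γ
  exact h5 γ

end Fermat.Agent.IharaL
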