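import Fermat.Agent.IharaL.Bd
import Fermat.Agent.SL2Pres.Lift

/-!
# `T_ℓ - ℓ - 1` kills the parabolic part
-/

set_option autoImplicit false
set_option linter.unusedSectionVars false

noncomputable section

namespace Fermat.Agent.IharaL

open CongruenceSubgroup Matrix.SpecialLinearGroup Matrix OnePoint ModularForm
open Fermat.Agent.Ihara Fermat.Agent.AnJac
open scoped MatrixGroups

variable {N : ℕ}

/-- refined form of `orbit_rq` -/
theorem rq_mul {ℓ : ℕ} (hℓ : ℓ.Prime) (hℓN : ℓ ≡ 1 [MOD N]) (x : OnePoint (ZMod ℓ)) (g : SL(2,ℤ)) :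
    ∃ (τ : Gamma0 N) (a b d : ℤ), a * d = ℓ ∧
      ((rq ℓ x * mapGL ℚ g : GL (Fin 2) ℚ) : Matrix (Fin 2) (Fin 2) ℚ) =
        ((mapGL ℚ ((τ : SL(2,ℤ)) * g) : GL (Fin 2) ℚ) : Matrix (Fin 2) (Fin 2) ℚ) *
          !![(a : ℚ), (b : ℚ); 0, (d : ℚ)] := by
  obtain ⟨γ, hγ⟩ : ∃ γ : SL(2,ℤ), γ = g := ⟨g, rfl⟩
  subst hγ
  set α : Cusp := mapGL ℚ γ • (∞ : Cusp) with hα
  have hγ : mapGL ℚ γ • (∞ : Cusp) = α := rfl
  obtain ⟨γ', hγ'⟩ := exists_inf (rq ℓ x • α)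
  obtain ⟨a, b, d, hA, had⟩ := rq_coe hℓ.ne_zero x
  -- the upper triangular matrix
  set p := γ 0 0 with hp
  set q := γ 0 1 with hq
  set r := γ 1 0 with hr
  set s := γ 1 1 with hs
  set p' := γ' 0 0 with hp'
  set q' := γ' 0 1 with hq'
  set r' := γ' 1 0 with hr'
  set s' := γ' 1 1 with hs'
  have hdet : p * s - q * r = 1 := by
    have := γ.det_coe
    rwa [Matrix.det_fin_two] at this
  have hdet' : p' * s' - q' * r' = 1 := by
    have := γ'.det_coe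
    rwa [Matrix.det_fin_two] at this
  have h1 : ((mapGL ℚ γ')⁻¹ * rq ℓ x * mapGL ℚ γ) • (∞ : Cusp) = ∞ := by
    rw [mul_smul, mul_smul, hγ, ← hγ', inv_smul_smul]
  rw [OnePoint.smul_infty_eq_self_iff] at h1
  have hinv : (((mapGL ℚ γ')⁻¹ : GL (Fin 2) ℚ) : Matrix (Fin 2) (Fin 2) ℚ) =
      !![(s' : ℚ), -(q' : ℚ); -(r' : ℚ), (p' : ℚ)] := by
    rw [← map_inv]
    obtain ⟨e1, e2, e3, e4⟩ := inv_ent γ'
    ext i j
    rw [mapGL_ent]
    fin_cases i <;> fin_cases j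
    · change ((γ'⁻¹ 0 0 : ℤ) : ℚ) = _
      rw [e1]; rfl
    · change ((γ'⁻¹ 0 1 : ℤ) : ℚ) = _
      rw [e2]; push_cast; rfl
    · change ((γ'⁻¹ 1 0 : ℤ) : ℚ) = _
      rw [e3]; push_cast; rfl
    · change ((γ'⁻¹ 1 1 : ℤ) : ℚ) = _
      rw [e4]; rfl
  have hγm : ((mapGL ℚ γ : GL (Fin 2) ℚ) : Matrix (Fin 2) (Fin 2) ℚ) =
      !![(p : ℚ), (q : ℚ); (r : ℚ), (s : ℚ)] := by
    ext i j
    fin_cases i <;> fin_cases j <;> simp [hs, hq, hr, hp]
  have h2 : (((mapGL ℚ γ')⁻¹ * rq ℓ x * mapGL ℚ γ : GL (Fin 2) ℚ) : Matrix (Fin 2) (Fin 2) ℚ) =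
      !![(s' : ℚ), -(q' : ℚ); -(r' : ℚ), (p' : ℚ)] * !![(a : ℚ), (b : ℚ); 0, (d : ℚ)] *
        !![(p : ℚ), (q : ℚ); (r : ℚ), (s : ℚ)] := by
    rw [Units.val_mul, Units.val_mul, hinv, hA, hγm]
  have h3 : -r' * (a * p + b * r) + p' * (d * r) = 0 := by
    have h4 : ((mapGL ℚ γ')⁻¹ * rq ℓ x * mapGL ℚ γ : GL (Fin 2) ℚ) 1 0 =
      ((-r' * (a * p + b * r) + p' * (d * r) : ℤ) : ℚ) := by
      rw [h2]
      simp [Matrix.mul_apply, Fin.sum_univ_two]
      ring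
    rw [h4] at h1
    exact_mod_cast h1
  -- the entries
  set A := s' * (a * p + b * r) - q' * (d * r) with hAdef
  set D := -r' * (a * q + b * s) + p' * (d * s) with hDdef
  set B := s' * (a * q + b * s) - q' * (d * s) with hBdef
  have hAD : A * D = ℓ := by
    have h5 : A * D - B * (-r' * (a * p + b * r) + p' * (d * r)) =
        (p' * s' - q' * r') * (a * d) * (p * s - q * r) := by
      rw [hAdef, hBdef, hDdef]; ring
    rw [h3, mul_zero, sub_zero, hdet, hdet', had] at h5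
    simpa using h5
  have hmod : (N : ℤ) ∣ (ℓ : ℤ) - 1 := by
    have := (Nat.modEq_iff_dvd.mp hℓN.symm)
    simpa using this
  obtain ⟨e, he, heA, heD⟩ : ∃ e : ℤ, e * e = 1 ∧ (N : ℤ) ∣ e - A ∧ (N : ℤ) ∣ e - D := by
    have hpr : Prime (ℓ : ℤ) := Nat.prime_iff_prime_int.mp hℓ
    rcases hpr.irreducible.isUnit_or_isUnit hAD.symm with h6 | h6
    · rcases Int.isUnit_iff.mp h6 with h7 | h7
      · rw [h7] at hAD ⊢
        refine ⟨1, by ring, by simp, ?_⟩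
        rw [one_mul] at hAD
        rw [hAD]
        exact (dvd_neg.mpr hmod).trans (by rw [neg_sub])
      · rw [h7] at hAD ⊢
        refine ⟨-1, by ring, by simp, ?_⟩
        have : D = -ℓ := by linarith
        rw [this]
        exact hmod.trans (by rw [show (-1 : ℤ) - -ℓ = ℓ - 1 by ring])
    · rcases Int.isUnit_iff.mp h6 with h7 | h7
      · rw [h7] at hAD ⊢
        refine ⟨1, by ring, ?_, by simp⟩
        rw [mul_one] at hAD
        rw [hAD]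
        exact (dvd_neg.mpr hmod).trans (by rw [neg_sub])
      · rw [h7] at hAD ⊢
        refine ⟨-1, by ring, ?_, by simp⟩
        have : A = -ℓ := by linarith
        rw [this]
        exact hmod.trans (by rw [show (-1 : ℤ) - -ℓ = ℓ - 1 by ring])
  -- the element
  obtain ⟨t, t00, t01, t10, t11⟩ := exists_SL' (a := e) (b := B) (c := 0) (d := e)
    (by rw [he]; ring)
  let τ : SL(2,ℤ) := γ' * t * γ⁻¹
  have hτ10 : τ 1 0 = r' * e * s - (r' * B + s' * e) * r := by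
    obtain ⟨e1, -, e3, -⟩ := inv_ent γ
    simp only [τ, mul_ent, e1, e3, t00, t01, t10, t11]
    rw [← hr', ← hs', ← hr, ← hs]
    ring
  have hτ : τ ∈ Gamma0 N := by
    rw [CongruenceSubgroup.Gamma0_mem, ZMod.intCast_zmod_eq_zero_iff_dvd, hτ10]
    have h8 : r' * A * s - (r' * B + s' * D) * r = 0 := by
      rw [hAdef, hBdef, hDdef]
      linear_combination -(s' * s) * h3
    have h13 : r' * e * s - (r' * B + s' * e) * r =
        (r' * s) * (e - A) - (s' * r) * (e - D) + (r' * A * s - (r' * B + s' * D) * r) := by ring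
    rw [h13, h8, add_zero]
    exact dvd_sub (heA.mul_left _) (heD.mul_left _)
  refine ⟨⟨τ, hτ⟩, e * A, e * B - B * D, e * D, by rw [← hAD]; linear_combination (A * D) * he, ?_⟩
  have h20 : (⟨τ, hτ⟩ : Gamma0 N) * γ = γ' * t := by
    change γ' * t * γ⁻¹ * γ = _
    rw [inv_mul_cancel_right]
  rw [h20, map_mul, Units.val_mul, Units.val_mul, hA, hγm]
  have hγ'm : ((mapGL ℚ γ' : GL (Fin 2) ℚ) : Matrix (Fin 2) (Fin 2) ℚ) =
      !![(p' : ℚ), (q' : ℚ); (r' : ℚ), (s' : ℚ)] := by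
    ext i j
    fin_cases i <;> fin_cases j <;> simp [hs', hq', hr', hp']
  have htm : ((mapGL ℚ t : GL (Fin 2) ℚ) : Matrix (Fin 2) (Fin 2) ℚ) =
      !![(e : ℚ), (B : ℚ); 0, (e : ℚ)] := by
    ext i j
    fin_cases i <;> fin_cases j <;> simp [t00, t01, t10, t11]
  rw [hγ'm, htm]
  have hq2 : ((e : ℚ) * e) = 1 := by exact_mod_cast he
  have i00 : (a * p + b * r : ℚ) = p' * A := by
    have : a * p + b * r = p' * A := by
      rw [hAdef]; linear_combination -(a * p + b * r) * hdet' + q' * h3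
    exact_mod_cast this
  have i10 : (d * r : ℚ) = r' * A := by
    have : d * r = r' * A := by
      rw [hAdef]; linear_combination -(d * r) * hdet' + s' * h3
    exact_mod_cast this
  have i01 : (a * q + b * s : ℚ) = p' * B + q' * D := by
    have : a * q + b * s = p' * B + q' * D := by
      rw [hBdef, hDdef]; linear_combination -(a * q + b * s) * hdet'
    exact_mod_cast this
  have i11 : (d * s : ℚ) = r' * B + s' * D := by
    have : d * s = r' * B + s' * D := by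
      rw [hBdef, hDdef]; linear_combination -(d * s) * hdet'
    exact_mod_cast this
  ext i j
  fin_cases i <;> fin_cases j <;>
    simp [Matrix.mul_apply, Fin.sum_univ_two]
  · linear_combination i00 - (p' * A : ℚ) * hq2
  · linear_combination i01 - (p' * B : ℚ) * hq2 - (q' * D : ℚ) * hq2
  · linear_combination i10 - (r' * A : ℚ) * hq2
  · linear_combination i11 - (r' * B : ℚ) * hq2 - (s' * D : ℚ) * hq2

/-- translations -/
abbrev tz (n : ℤ) : SL(2,ℤ) := ModularGroup.T ^ n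

/-- conjugates of `T ^ (N m)` -/
lemma conj_tz_mem (g : SL(2,ℤ)) (m : ℤ) : g * tz (N * m) * g⁻¹ ∈ Gamma0 N := by
  obtain ⟨e1, e2, e3, e4⟩ := inv_ent g
  rw [CongruenceSubgroup.Gamma0_mem, ZMod.intCast_zmod_eq_zero_iff_dvd]
  simp only [mul_ent, e1, e3]
  have h := ModularGroup.coe_T_zpow (N * m)
  have h1 : tz (N * m) 0 0 = 1 := by rw [h]; rfl
  have h2 : tz (N * m) 0 1 = N * m := by rw [h]; rfl
  have h3 : tz (N * m) 1 0 = 0 := by rw [h]; rfl
  have h4 : tz (N * m) 1 1 = 1 := by rw [h]; rfl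
  rw [h1, h2, h3, h4]
  exact ⟨-(g 1 0 * m * g 1 0), by ring⟩

section T

variable {ℓ : ℕ} [hℓ : Fact ℓ.Prime] (hN : ¬ ℓ ∣ N)

lemma rq_eq_of {γ h : Gamma0 N} {x y : OnePoint (ZMod ℓ)}
    (e : rq ℓ x * mapGL ℚ (γ : SL(2,ℤ)) = mapGL ℚ (h : SL(2,ℤ)) * rq ℓ y) :
    (hfT N ℓ hN).s γ x = y ∧ (hfT N ℓ hN).g γ x = h := by
  apply (hfT N ℓ hN).eq_of
  have h1 := congrArg toR e
  rw [map_mul, map_mul, toR_rq hℓ.out.ne_zero, toR_rq hℓ.out.ne_zero, toR_mapGL, toR_mapGL] at h1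
  exact h1

lemma mapGL_tz (n : ℤ) : ((mapGL ℚ (tz n) : GL (Fin 2) ℚ) : Matrix (Fin 2) (Fin 2) ℚ) =
    !![1, (n : ℚ); 0, 1] := by
  have h := ModularGroup.coe_T_zpow n
  ext i j
  rw [mapGL_ent, h]
  fin_cases i <;> fin_cases j <;> simp

/-- the unipotent elements at the cusp `g ∞` -/
def uu (N : ℕ) (g : SL(2,ℤ)) (m : ℤ) : Gamma0 N := ⟨g * tz (N * m) * g⁻¹, conj_tz_mem g m⟩

lemma uu_eq (g : SL(2,ℤ)) (m : ℤ) : uu N g m = (uu N g 1) ^ m := by
  apply Subtype.ext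
  rw [Subgroup.coe_zpow]
  change g * tz (N * m) * g⁻¹ = (g * tz (N * 1) * g⁻¹) ^ m
  rw [conj_zpow, mul_one, tz, tz, _root_.zpow_mul]

/-- the action of the correspondence on the unipotent elements -/
theorem g_uu (hℓN : ℓ ≡ 1 [MOD N]) (x : OnePoint (ZMod ℓ)) (g : SL(2,ℤ)) :
    ∃ (τ : Gamma0 N) (a b d : ℤ), a * d = ℓ ∧
      ((rq ℓ x * mapGL ℚ g : GL (Fin 2) ℚ) : Matrix (Fin 2) (Fin 2) ℚ) =
        ((mapGL ℚ ((τ : SL(2,ℤ)) * g) : GL (Fin 2) ℚ) : Matrix (Fin 2) (Fin 2) ℚ) *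
          !![(a : ℚ), (b : ℚ); 0, (d : ℚ)] ∧
      (hfT N ℓ hN).g (uu N g ℓ) x = τ * uu N g (a ^ 2) * τ⁻¹ := by
  obtain ⟨τ, a, b, d, had, hm⟩ := rq_mul hℓ.out hℓN x g
  refine ⟨τ, a, b, d, had, hm, ?_⟩
  refine (rq_eq_of hN (y := x) ?_).2
  have hU : (!![(a : ℚ), (b : ℚ); 0, (d : ℚ)]).det ≠ 0 := by
    rw [Matrix.det_fin_two_of]
    have : ((a * d : ℤ) : ℚ) ≠ 0 := by rw [had]; exact_mod_cast hℓ.out.ne_zero
    push_cast at this
    simpa using this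
  set Ug : GL (Fin 2) ℚ := Matrix.GeneralLinearGroup.mkOfDetNeZero _ hU with hUg
  have h1 : rq ℓ x * mapGL ℚ g = mapGL ℚ ((τ : SL(2,ℤ)) * g) * Ug := by
    apply Units.ext
    rw [hm]; rfl
  have h2 : rq ℓ x = mapGL ℚ ((τ : SL(2,ℤ)) * g) * Ug * (mapGL ℚ g)⁻¹ := by
    rw [← h1, mul_inv_cancel_right]
  have h3 : Ug * mapGL ℚ (tz (N * ℓ)) = mapGL ℚ (tz (N * a ^ 2)) * Ug := by
    apply Units.ext
    rw [Units.val_mul, Units.val_mul, mapGL_tz, mapGL_tz]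
    change !![(a : ℚ), (b : ℚ); 0, (d : ℚ)] * _ = _ * !![(a : ℚ), (b : ℚ); 0, (d : ℚ)]
    have had' : (a : ℚ) * d = ℓ := by exact_mod_cast had
    ext i j
    fin_cases i <;> fin_cases j <;> simp [Matrix.mul_apply, Fin.sum_univ_two]
    linear_combination (-(N : ℚ) * a) * had'
  have h4 : mapGL ℚ ((uu N g ℓ : Gamma0 N) : SL(2,ℤ)) =
      mapGL ℚ g * mapGL ℚ (tz (N * ℓ)) * (mapGL ℚ g)⁻¹ := by
    rw [← map_mul, ← map_inv, ← map_mul]; rfl
  have h5 : mapGL ℚ ((τ * uu N g (a ^ 2) * τ⁻¹ : Gamma0 N) : SL(2,ℤ)) =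
      mapGL ℚ ((τ : SL(2,ℤ)) * g) * mapGL ℚ (tz (N * a ^ 2)) *
        (mapGL ℚ ((τ : SL(2,ℤ)) * g))⁻¹ := by
    rw [← map_mul, ← map_inv, ← map_mul]
    congr 1
    change (τ : SL(2,ℤ)) * (g * tz (N * a ^ 2) * g⁻¹) * (τ : SL(2,ℤ))⁻¹ = _
    group
  rw [h4, h5, h2]
  simp only [mul_assoc, inv_mul_cancel_left]
  rw [← mul_assoc Ug, h3]
  simp only [mul_assoc]

/-- the exceptional index -/
def i0 (ℓ : ℕ) [Fact ℓ.Prime] (g : SL(2,ℤ)) : OnePoint (ZMod ℓ) :=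
  if ((g 1 0 : ℤ) : ZMod ℓ) = 0 then ∞ else
    ((-((g 0 0 : ℤ) : ZMod ℓ) / ((g 1 0 : ℤ) : ZMod ℓ) : ZMod ℓ) : OnePoint (ZMod ℓ))

omit hN in
lemma det_mod (g : SL(2,ℤ)) : ((g 0 0 : ℤ) : ZMod ℓ) * ((g 1 1 : ℤ) : ZMod ℓ) -
    ((g 0 1 : ℤ) : ZMod ℓ) * ((g 1 0 : ℤ) : ZMod ℓ) = 1 := by
  have := g.det_coe
  rw [Matrix.det_fin_two] at this
  exact_mod_cast congrArg (Int.cast (R := ZMod ℓ)) this

omit hN in
open Classical in
lemma a_sq (x : OnePoint (ZMod ℓ)) (g g' : SL(2,ℤ)) {a b d : ℤ} (had : a * d = ℓ)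
    (hm : ((rq ℓ x * mapGL ℚ g : GL (Fin 2) ℚ) : Matrix (Fin 2) (Fin 2) ℚ) =
        ((mapGL ℚ g' : GL (Fin 2) ℚ) : Matrix (Fin 2) (Fin 2) ℚ) *
          !![(a : ℚ), (b : ℚ); 0, (d : ℚ)]) :
    a ^ 2 = if x = i0 ℓ g then (ℓ : ℤ) ^ 2 else 1 := by
  have hℓ' : (ℓ : ℚ) ≠ 0 := by exact_mod_cast hℓ.out.ne_zero
  have : NeZero ℓ := ⟨hℓ.out.ne_zero⟩
  have hdet' : g' 0 0 * g' 1 1 - g' 0 1 * g' 1 0 = 1 := by
    have := g'.det_coe
    rwa [Matrix.det_fin_two] at this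
  -- first column
  have key : ((ℓ : ℤ) ∣ a ↔ x = i0 ℓ g) := by
    induction x using OnePoint.rec with
    | infty =>
      have h1 : ((rq ℓ ∞ : GL (Fin 2) ℚ) : Matrix (Fin 2) (Fin 2) ℚ) = !![(ℓ : ℚ), 0; 0, 1] :=
        coe_um (a := (ℓ : ℚ)) (b := 0) (d := 1) (by simpa using hℓ')
      rw [Units.val_mul, h1] at hm
      have e0 : (ℓ : ℤ) * g 0 0 = g' 0 0 * a := by
        have := congrFun (congrFun hm 0) 0
        simp [Matrix.mul_apply, Fin.sum_univ_two, -ZMod.natCast_val] at this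
        exact_mod_cast this
      have e1 : g 1 0 = g' 1 0 * a := by
        have := congrFun (congrFun hm 1) 0
        simp [Matrix.mul_apply, Fin.sum_univ_two, -ZMod.natCast_val] at this
        exact_mod_cast this
      constructor
      · intro h
        have h2 : ((g 1 0 : ℤ) : ZMod ℓ) = 0 := by
          rw [ZMod.intCast_zmod_eq_zero_iff_dvd, e1]
          exact h.mul_left _
        rw [i0, if_pos h2]
      · intro h
        have h2 : ((g 1 0 : ℤ) : ZMod ℓ) = 0 := by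
          by_contra h3
          rw [i0, if_neg h3] at h
          exact OnePoint.infty_ne_coe _ h
        rw [ZMod.intCast_zmod_eq_zero_iff_dvd] at h2
        have h4 : a = (ℓ * g 0 0) * g' 1 1 - g' 0 1 * g 1 0 := by
          rw [e0, e1]; linear_combination (-a) * hdet'
        rw [h4]
        exact dvd_sub ((dvd_mul_right _ _).mul_right _) (h2.mul_left _)
    | coe j =>
      have h1 : ((rq ℓ (j : OnePoint (ZMod ℓ)) : GL (Fin 2) ℚ) : Matrix (Fin 2) (Fin 2) ℚ) =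
          !![(1 : ℚ), (j.val : ℚ); 0, (ℓ : ℚ)] :=
        coe_um (a := (1 : ℚ)) (b := (j.val : ℚ)) (d := (ℓ : ℚ)) (by simpa using hℓ')
      rw [Units.val_mul, h1] at hm
      have e0 : g 0 0 + (j.val : ℤ) * g 1 0 = g' 0 0 * a := by
        have := congrFun (congrFun hm 0) 0
        simp [Matrix.mul_apply, Fin.sum_univ_two, -ZMod.natCast_val] at this
        exact_mod_cast this
      have e1 : (ℓ : ℤ) * g 1 0 = g' 1 0 * a := by
        have := congrFun (congrFun hm 1) 0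
        simp [Matrix.mul_apply, Fin.sum_univ_two, -ZMod.natCast_val] at this
        exact_mod_cast this
      have e2 : ((ℓ : ℤ) ∣ a ↔ ((g 0 0 : ℤ) : ZMod ℓ) + j * ((g 1 0 : ℤ) : ZMod ℓ) = 0) := by
        have h3 : ((g 0 0 : ℤ) : ZMod ℓ) + j * ((g 1 0 : ℤ) : ZMod ℓ) =
            ((g 0 0 + (j.val : ℤ) * g 1 0 : ℤ) : ZMod ℓ) := by
          push_cast
          rw [ZMod.natCast_zmod_val]
        rw [h3, ZMod.intCast_zmod_eq_zero_iff_dvd]
        constructor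
        · intro h
          rw [e0]
          exact h.mul_left _
        · intro h
          have h4 : a = (g 0 0 + (j.val : ℤ) * g 1 0) * g' 1 1 - g' 0 1 * (ℓ * g 1 0) := by
            rw [e0, e1]; linear_combination (-a) * hdet'
          rw [h4]
          exact dvd_sub (h.mul_right _) ((dvd_mul_right _ _).mul_left _)
      rw [e2, i0]
      split_ifs with h3
      · rw [h3, mul_zero, add_zero]
        constructor
        · intro h4
          have h5 := det_mod (ℓ := ℓ) g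
          rw [h3, h4] at h5
          simp at h5
        · intro h4
          exact absurd h4.symm (OnePoint.infty_ne_coe _)
      · rw [OnePoint.coe_eq_coe, eq_div_iff h3, add_comm, add_eq_zero_iff_eq_neg]
  have hpr : Prime (ℓ : ℤ) := Nat.prime_iff_prime_int.mp hℓ.out
  by_cases hx : x = i0 ℓ g
  · rw [if_pos hx]
    obtain ⟨c, hc⟩ := key.mpr hx
    have h1 : c * d = 1 := by
      have : (ℓ : ℤ) * (c * d) = ℓ * 1 := by rw [← mul_assoc, ← hc, had, mul_one]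
      exact mul_left_cancel₀ hpr.ne_zero this
    have h2 : c ^ 2 = 1 := by
      rcases Int.mul_eq_one_iff_eq_one_or_neg_one.mp h1 with ⟨h, -⟩ | ⟨h, -⟩ <;> rw [h] <;> ring
    rw [hc, mul_pow, h2, mul_one]
  · rw [if_neg hx]
    have h0 : ¬ (ℓ : ℤ) ∣ a := fun h => hx (key.mp h)
    have h1 : (ℓ : ℤ) ∣ d := (hpr.dvd_or_dvd (by rw [had])).resolve_left h0
    obtain ⟨c, hc⟩ := h1
    have h2 : a * c = 1 := by
      have : (ℓ : ℤ) * (a * c) = ℓ * 1 := by rw [mul_one]; conv_rhs => rw [← had, hc]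
                                             ring
      exact mul_left_cancel₀ hpr.ne_zero this
    rcases Int.mul_eq_one_iff_eq_one_or_neg_one.mp h2 with ⟨h, -⟩ | ⟨h, -⟩ <;> rw [h] <;> ring

open Classical in
/-- `T_ℓ` on unipotent elements -/
theorem T_uu (hℓN : ℓ ≡ 1 [MOD N]) (f : Additive (Gamma0 N) →+ ℤ) (g : SL(2,ℤ)) :
    (hfT N ℓ hN).T f (Additive.ofMul (uu N g ℓ)) =
      (ℓ * (ℓ + 1)) * f (Additive.ofMul (uu N g 1)) := by
  have : NeZero ℓ := ⟨hℓ.out.ne_zero⟩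
  rw [HF.T_apply]
  have h1 : ∀ x : OnePoint (ZMod ℓ), f (Additive.ofMul ((hfT N ℓ hN).g (uu N g ℓ) x)) =
      (if x = i0 ℓ g then (ℓ : ℤ) ^ 2 else 1) * f (Additive.ofMul (uu N g 1)) := by
    intro x
    obtain ⟨τ, a, b, d, had, hm, hg⟩ := g_uu hN hℓN x g
    rw [hg, ofMul_mul, ofMul_mul, ofMul_inv, map_add, map_add, map_neg, add_neg_cancel_comm,
      uu_eq, ofMul_zpow, map_zsmul, smul_eq_mul, a_sq x g _ had hm]
  rw [Finset.sum_congr rfl fun x _ => h1 x, ← Finset.sum_mul]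
  congr 1
  have h2 : ∀ x : OnePoint (ZMod ℓ), (if x = i0 ℓ g then (ℓ : ℤ) ^ 2 else 1) =
      1 + (if x = i0 ℓ g then (ℓ : ℤ) ^ 2 - 1 else 0) := by
    intro x; split_ifs <;> ring
  rw [Finset.sum_congr rfl fun x _ => h2 x, Finset.sum_add_distrib, Finset.sum_const,
    Finset.sum_ite_eq' Finset.univ (i0 ℓ g) fun _ => (ℓ : ℤ) ^ 2 - 1, if_pos (Finset.mem_univ _)]
  have h3 : (Finset.univ : Finset (OnePoint (ZMod ℓ))).card = ℓ + 1 := by
    rw [Finset.card_univ]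
    change Fintype.card (Option (ZMod ℓ)) = _
    rw [Fintype.card_option, ZMod.card]
  rw [h3]
  simp
  ring

/-- **(F3)** `T_ℓ - ℓ - 1` kills the stabilizers of cusps -/
theorem kc_E (hN0 : N ≠ 0) (hℓN : ℓ ≡ 1 [MOD N]) (f : Additive (Gamma0 N) →+ ℤ) :
    KC ((hfT N ℓ hN).T f - (ℓ + 1) • f) := by
  intro γ α hγ
  obtain ⟨g, rfl⟩ := exists_inf α
  have h1 : (g⁻¹ * (γ : SL(2,ℤ)) * g) 1 0 = 0 := by
    have h2 : mapGL ℚ (g⁻¹ * (γ : SL(2,ℤ)) * g) • (∞ : Cusp) = ∞ := by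
      rw [map_mul, map_mul, map_inv, mul_smul, mul_smul, hγ, inv_smul_smul]
    rw [OnePoint.smul_infty_eq_self_iff, mapGL_ent] at h2
    exact_mod_cast h2
  -- the square is a power of `T`
  obtain ⟨m, hm⟩ : ∃ m : ℤ, (g⁻¹ * (γ : SL(2,ℤ)) * g) ^ 2 = tz m := by
    obtain ⟨m, h2 | h2⟩ := SL2Pres.upper_eq h1
    · exact ⟨2 * m, by rw [h2, tz, two_mul, _root_.zpow_add, sq]⟩
    · exact ⟨2 * m, by rw [h2, tz, two_mul, _root_.zpow_add, sq]; simp⟩
  have h3 : γ ^ (2 * (N * ℓ)) = (uu N g ℓ) ^ m := by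
    apply Subtype.ext
    have h4 : ((γ : SL(2,ℤ))) ^ 2 = g * tz m * g⁻¹ := by
      rw [← hm, sq, sq]; group
    rw [Subgroup.coe_pow, Subgroup.coe_zpow, _root_.pow_mul, h4, conj_pow]
    change g * (ModularGroup.T ^ m) ^ (N * ℓ) * g⁻¹ = (g * ModularGroup.T ^ ((N : ℤ) * ℓ) * g⁻¹) ^ m
    rw [conj_zpow, ← zpow_natCast, ← _root_.zpow_mul, ← _root_.zpow_mul]
    congr 3
    push_cast
    ring
  set F := (hfT N ℓ hN).T f - (ℓ + 1) • f with hF
  have h4 : F (Additive.ofMul (uu N g ℓ)) = 0 := by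
    rw [hF]
    change (hfT N ℓ hN).T f (Additive.ofMul (uu N g ℓ)) - (ℓ + 1) • f (Additive.ofMul (uu N g ℓ)) = 0
    rw [T_uu hN hℓN, uu_eq g ℓ, ofMul_zpow, map_zsmul, smul_eq_mul, nsmul_eq_mul]
    push_cast
    ring
  have h5 : (2 * (N * ℓ)) • F (Additive.ofMul γ) = 0 := by
    rw [← map_nsmul, ← ofMul_pow, h3, ofMul_zpow, map_zsmul, h4, smul_zero]
  rw [smul_eq_zero] at h5
  exact h5.resolve_left (by
    have := hℓ.out.ne_zero
    positivity)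

end T

end Fermat.Agent.IharaL
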